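import Mathlib

/-!
# Row LT, asset for the Hasse norm theorem over `ℚ` (helper769): LEGENDRE'S THEOREM

`legendre769`: for positive integers `a, b, c` with `a b c` squarefree, if `-bc` is a square
modulo `a`, `ac` a square modulo `b` and `ab` a square modulo `c`, then `a x² = b y² + c z²` has
a nontrivial integral solution.  (Niven-Zuckerman-Montgomery, Thm 5.11: pigeonhole proof of
Mordell.)  Mathlib only.
-/

set_option autoImplicit false
set_option linter.style.haveILetI false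

namespace Fermat.Agent.LT.HM.H769

/-- Pigeonhole: a linear congruence modulo `m` has a small nontrivial solution. -/
theorem pigeon769 (A B C m : ℕ) (hm : 0 < m) (h : m < (A + 1) * (B + 1) * (C + 1))
    (α β γ : ℤ) :
    ∃ x y z : ℤ, (x ≠ 0 ∨ y ≠ 0 ∨ z ≠ 0) ∧ |x| ≤ A ∧ |y| ≤ B ∧ |z| ≤ C ∧
      (m : ℤ) ∣ α * x + β * y + γ * z := by
  haveI : NeZero m := ⟨hm.ne'⟩
  let f : Fin (A + 1) × Fin (B + 1) × Fin (C + 1) → ZMod m := fun p =>
    ((α * (p.1 : ℕ) + β * (p.2.1 : ℕ) + γ * (p.2.2 : ℕ) : ℤ) : ZMod m)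
  have hcard : Fintype.card (ZMod m) <
      Fintype.card (Fin (A + 1) × Fin (B + 1) × Fin (C + 1)) := by
    rw [ZMod.card, Fintype.card_prod, Fintype.card_prod, Fintype.card_fin, Fintype.card_fin,
      Fintype.card_fin, ← mul_assoc]
    exact h
  obtain ⟨p, q, hpq, hf⟩ := Fintype.exists_ne_map_eq_of_card_lt f hcard
  refine ⟨(p.1 : ℕ) - (q.1 : ℕ), (p.2.1 : ℕ) - (q.2.1 : ℕ), (p.2.2 : ℕ) - (q.2.2 : ℕ),
    ?_, ?_, ?_, ?_, ?_⟩
  · by_contra hcon
    push Not at hcon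
    obtain ⟨h1, h2, h3⟩ := hcon
    apply hpq
    have e1 : p.1 = q.1 := by
      apply Fin.ext
      have : ((p.1 : ℕ) : ℤ) = ((q.1 : ℕ) : ℤ) := by linarith
      exact_mod_cast this
    have e2 : p.2.1 = q.2.1 := by
      apply Fin.ext
      have : ((p.2.1 : ℕ) : ℤ) = ((q.2.1 : ℕ) : ℤ) := by linarith
      exact_mod_cast this
    have e3 : p.2.2 = q.2.2 := by
      apply Fin.ext
      have : ((p.2.2 : ℕ) : ℤ) = ((q.2.2 : ℕ) : ℤ) := by linarith
      exact_mod_cast this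
    exact Prod.ext e1 (Prod.ext e2 e3)
  · have h1 : ((p.1 : ℕ) : ℤ) ≤ A := by exact_mod_cast Nat.lt_succ_iff.mp p.1.2
    have h2 : ((q.1 : ℕ) : ℤ) ≤ A := by exact_mod_cast Nat.lt_succ_iff.mp q.1.2
    rw [abs_le]
    constructor <;> linarith [Int.natCast_nonneg (p.1 : ℕ), Int.natCast_nonneg (q.1 : ℕ)]
  · have h1 : ((p.2.1 : ℕ) : ℤ) ≤ B := by exact_mod_cast Nat.lt_succ_iff.mp p.2.1.2
    have h2 : ((q.2.1 : ℕ) : ℤ) ≤ B := by exact_mod_cast Nat.lt_succ_iff.mp q.2.1.2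
    rw [abs_le]
    constructor <;> linarith [Int.natCast_nonneg (p.2.1 : ℕ), Int.natCast_nonneg (q.2.1 : ℕ)]
  · have h1 : ((p.2.2 : ℕ) : ℤ) ≤ C := by exact_mod_cast Nat.lt_succ_iff.mp p.2.2.2
    have h2 : ((q.2.2 : ℕ) : ℤ) ≤ C := by exact_mod_cast Nat.lt_succ_iff.mp q.2.2.2
    rw [abs_le]
    constructor <;> linarith [Int.natCast_nonneg (p.2.2 : ℕ), Int.natCast_nonneg (q.2.2 : ℕ)]
  · rw [← ZMod.intCast_zmod_eq_zero_iff_dvd]
    have h1 : f p - f q = 0 := by rw [hf, sub_self]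
    have h2 : ((α * (((p.1 : ℕ) : ℤ) - ((q.1 : ℕ) : ℤ)) + β * (((p.2.1 : ℕ) : ℤ) - (q.2.1 : ℕ)) +
        γ * (((p.2.2 : ℕ) : ℤ) - (q.2.2 : ℕ)) : ℤ) : ZMod m) = f p - f q := by
      simp only [f]
      push_cast
      ring
    rw [h2, h1]

/-- A squarefree natural number which is a perfect square is `1`. -/
theorem eq_one_of_squarefree_sq769 {u : ℕ} (hu : Squarefree u) {w : ℤ} (h : (u : ℤ) = w ^ 2) :
    u = 1 := by
  have h1 : w.natAbs * w.natAbs ∣ u := by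
    have : u = w.natAbs * w.natAbs := by
      have h2 : (u : ℤ) = ((w.natAbs * w.natAbs : ℕ) : ℤ) := by
        rw [h]
        push_cast
        rw [← sq, sq_abs]
      exact_mod_cast h2
    rw [this]
  have h2 := hu _ h1
  rw [Nat.isUnit_iff] at h2
  have h3 : (u : ℤ) = 1 := by
    rw [h]
    have : w ^ 2 = ((w.natAbs : ℤ)) ^ 2 := by
      rw [Int.natCast_natAbs, sq_abs]
    rw [this, h2]
    norm_num
  exact_mod_cast h3

/-- The linear form: if `abc ∣ ℓ(x,y,z)` then `abc ∣ a x² - b y² - c z²`. -/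
theorem exists_linear769 (a b c : ℤ) (hab : IsCoprime a b) (hac : IsCoprime a c)
    (hbc : IsCoprime b c) (t s r : ℤ) (ht : a ∣ t ^ 2 + b * c) (hs : b ∣ s ^ 2 - a * c)
    (hr : c ∣ r ^ 2 - a * b) :
    ∃ α β γ : ℤ, ∀ x y z : ℤ, a * b * c ∣ α * x + β * y + γ * z →
      a * b * c ∣ a * x ^ 2 - b * y ^ 2 - c * z ^ 2 := by
  obtain ⟨ua, va, hea⟩ := IsCoprime.mul_right hab hac
  obtain ⟨ub, vb, heb⟩ := IsCoprime.mul_right hab.symm hbc
  obtain ⟨uc, vc, hec⟩ := IsCoprime.mul_right hac.symm hbc.symm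
  -- `ea = va * (b * c)`, `eb = vb * (a * c)`, `ec = vc * (a * b)`
  refine ⟨(vb * (a * c) + vc * (a * b)) * a, va * (b * c) * b - vc * (a * b) * r,
    -(va * (b * c) * t) - vb * (a * c) * s, fun x y z hdvd => ?_⟩
  have hℓ : (vb * (a * c) + vc * (a * b)) * a * x + (va * (b * c) * b - vc * (a * b) * r) * y +
      (-(va * (b * c) * t) - vb * (a * c) * s) * z =
      va * (b * c) * (b * y - t * z) + vb * (a * c) * (a * x - s * z) +
        vc * (a * b) * (a * x - r * y) := by ring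
  rw [hℓ] at hdvd
  -- modulo `a`
  have hA : a ∣ a * x ^ 2 - b * y ^ 2 - c * z ^ 2 := by
    have h1 : a ∣ va * (b * c) * (b * y - t * z) + vb * (a * c) * (a * x - s * z) +
        vc * (a * b) * (a * x - r * y) :=
      Dvd.dvd.trans ⟨b * c, by ring⟩ hdvd
    have h2 : a ∣ b * y - t * z := by
      have h3 : b * y - t * z = (va * (b * c) * (b * y - t * z) + vb * (a * c) * (a * x - s * z) +
          vc * (a * b) * (a * x - r * y)) +
          a * (ua * (b * y - t * z) - vb * c * (a * x - s * z) - vc * b * (a * x - r * y)) := by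
        linear_combination (-(b * y - t * z)) * hea
      rw [h3]
      exact dvd_add h1 (dvd_mul_right _ _)
    obtain ⟨k, hk⟩ := h2
    obtain ⟨k', hk'⟩ := ht
    have h4 : a ∣ b * (b * y ^ 2 + c * z ^ 2) := by
      refine ⟨k * (b * y + t * z) + k' * z ^ 2, ?_⟩
      linear_combination (b * y + t * z) * hk + z ^ 2 * hk'
    have h5 : a ∣ b * y ^ 2 + c * z ^ 2 := hab.dvd_of_dvd_mul_left h4
    have h6 : a * x ^ 2 - b * y ^ 2 - c * z ^ 2 = a * x ^ 2 - (b * y ^ 2 + c * z ^ 2) := by ring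
    rw [h6]
    exact dvd_sub (dvd_mul_right _ _) h5
  -- modulo `b`
  have hB : b ∣ a * x ^ 2 - b * y ^ 2 - c * z ^ 2 := by
    have h1 : b ∣ va * (b * c) * (b * y - t * z) + vb * (a * c) * (a * x - s * z) +
        vc * (a * b) * (a * x - r * y) :=
      Dvd.dvd.trans ⟨a * c, by ring⟩ hdvd
    have h2 : b ∣ a * x - s * z := by
      have h3 : a * x - s * z = (va * (b * c) * (b * y - t * z) + vb * (a * c) * (a * x - s * z) +
          vc * (a * b) * (a * x - r * y)) +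
          b * (ub * (a * x - s * z) - va * c * (b * y - t * z) - vc * a * (a * x - r * y)) := by
        linear_combination (-(a * x - s * z)) * heb
      rw [h3]
      exact dvd_add h1 (dvd_mul_right _ _)
    obtain ⟨k, hk⟩ := h2
    obtain ⟨k', hk'⟩ := hs
    have h4 : b ∣ a * (a * x ^ 2 - c * z ^ 2) := by
      refine ⟨k * (a * x + s * z) + k' * z ^ 2, ?_⟩
      linear_combination (a * x + s * z) * hk + z ^ 2 * hk'
    have h5 : b ∣ a * x ^ 2 - c * z ^ 2 := hab.symm.dvd_of_dvd_mul_left h4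
    have h6 : a * x ^ 2 - b * y ^ 2 - c * z ^ 2 = (a * x ^ 2 - c * z ^ 2) - b * y ^ 2 := by ring
    rw [h6]
    exact dvd_sub h5 (dvd_mul_right _ _)
  -- modulo `c`
  have hC : c ∣ a * x ^ 2 - b * y ^ 2 - c * z ^ 2 := by
    have h1 : c ∣ va * (b * c) * (b * y - t * z) + vb * (a * c) * (a * x - s * z) +
        vc * (a * b) * (a * x - r * y) :=
      Dvd.dvd.trans ⟨a * b, by ring⟩ hdvd
    have h2 : c ∣ a * x - r * y := by
      have h3 : a * x - r * y = (va * (b * c) * (b * y - t * z) + vb * (a * c) * (a * x - s * z) +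
          vc * (a * b) * (a * x - r * y)) +
          c * (uc * (a * x - r * y) - va * b * (b * y - t * z) - vb * a * (a * x - s * z)) := by
        linear_combination (-(a * x - r * y)) * hec
      rw [h3]
      exact dvd_add h1 (dvd_mul_right _ _)
    obtain ⟨k, hk⟩ := h2
    obtain ⟨k', hk'⟩ := hr
    have h4 : c ∣ a * (a * x ^ 2 - b * y ^ 2) := by
      refine ⟨k * (a * x + r * y) + k' * y ^ 2, ?_⟩
      linear_combination (a * x + r * y) * hk + y ^ 2 * hk'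
    have h5 : c ∣ a * x ^ 2 - b * y ^ 2 := hac.symm.dvd_of_dvd_mul_left h4
    have h6 : a * x ^ 2 - b * y ^ 2 - c * z ^ 2 = (a * x ^ 2 - b * y ^ 2) - c * z ^ 2 := by ring
    rw [h6]
    exact dvd_sub h5 (dvd_mul_right _ _)
  exact IsCoprime.mul_dvd (IsCoprime.mul_left hac hbc) (hab.mul_dvd hA hB) hC

/-- **LEGENDRE'S THEOREM.** -/
theorem legendre769 (a b c : ℕ) (ha : 0 < a) (hb : 0 < b) (hc : 0 < c)
    (hsq : Squarefree (a * b * c))
    (h1 : ∃ t : ℤ, (a : ℤ) ∣ t ^ 2 + b * c)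
    (h2 : ∃ s : ℤ, (b : ℤ) ∣ s ^ 2 - a * c)
    (h3 : ∃ r : ℤ, (c : ℤ) ∣ r ^ 2 - a * b) :
    ∃ x y z : ℤ, (x ≠ 0 ∨ y ≠ 0 ∨ z ≠ 0) ∧ (a : ℤ) * x ^ 2 = b * y ^ 2 + c * z ^ 2 := by
  -- coprimality and squarefreeness
  obtain ⟨hcop1, hsqab, hsqc⟩ := Nat.squarefree_mul_iff.mp hsq
  obtain ⟨hcopab, hsqa, hsqb⟩ := Nat.squarefree_mul_iff.mp hsqab
  have hcopac : a.Coprime c := Nat.Coprime.coprime_mul_right hcop1
  have hcopbc : b.Coprime c := Nat.Coprime.coprime_mul_left hcop1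
  have hsqbc : Squarefree (b * c) := Nat.squarefree_mul_iff.mpr ⟨hcopbc, hsqb, hsqc⟩
  have hsqac : Squarefree (a * c) := Nat.squarefree_mul_iff.mpr ⟨hcopac, hsqa, hsqc⟩
  have haZ : (0 : ℤ) < a := by exact_mod_cast ha
  have hbZ : (0 : ℤ) < b := by exact_mod_cast hb
  have hcZ : (0 : ℤ) < c := by exact_mod_cast hc
  -- the special case `b = c = 1`: sums of two squares
  by_cases hbc1 : b = 1 ∧ c = 1
  · obtain ⟨rfl, rfl⟩ := hbc1
    obtain ⟨t, ht⟩ := h1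
    have hsqm : IsSquare (-1 : ZMod a) := by
      refine ⟨(t : ZMod a), ?_⟩
      have h4 : ((t ^ 2 + 1 * 1 : ℤ) : ZMod a) = 0 :=
        (ZMod.intCast_zmod_eq_zero_iff_dvd _ a).mpr (by exact_mod_cast ht)
      push_cast at h4
      linear_combination (-1 : ZMod a) * h4
    obtain ⟨u, v, huv⟩ := Nat.eq_sq_add_sq_of_isSquare_mod_neg_one hsqm
    refine ⟨1, u, v, Or.inl one_ne_zero, ?_⟩
    have : (a : ℤ) = (u : ℤ) ^ 2 + (v : ℤ) ^ 2 := by exact_mod_cast huv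
    rw [this]
    push_cast
    ring
  obtain ⟨t, ht⟩ := h1
  obtain ⟨s, hs⟩ := h2
  obtain ⟨r, hr⟩ := h3
  obtain ⟨α, β, γ, hlin⟩ := exists_linear769 (a : ℤ) b c hcopab.isCoprime hcopac.isCoprime
    hcopbc.isCoprime t s r ht hs hr
  -- the box
  have hbox : a * b * c <
      (Nat.sqrt (b * c) + 1) * (Nat.sqrt (a * c) + 1) * (Nat.sqrt (a * b) + 1) := by
    have hP := Nat.lt_succ_sqrt (b * c)
    have hQ := Nat.lt_succ_sqrt (a * c)
    have hR := Nat.lt_succ_sqrt (a * b)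
    simp only [Nat.succ_eq_add_one] at hP hQ hR
    by_contra hcon
    rw [not_lt] at hcon
    have h4 : ((Nat.sqrt (b * c) + 1) * (Nat.sqrt (a * c) + 1) * (Nat.sqrt (a * b) + 1)) ^ 2 ≤
        (a * b * c) ^ 2 := Nat.pow_le_pow_left hcon 2
    have h5 : (a * b * c) ^ 2 <
        ((Nat.sqrt (b * c) + 1) * (Nat.sqrt (a * c) + 1) * (Nat.sqrt (a * b) + 1)) ^ 2 := by
      have e1 : (a * b * c) ^ 2 = (b * c) * (a * c) * (a * b) := by ring
      have e2 : ((Nat.sqrt (b * c) + 1) * (Nat.sqrt (a * c) + 1) * (Nat.sqrt (a * b) + 1)) ^ 2 =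
          ((Nat.sqrt (b * c) + 1) * (Nat.sqrt (b * c) + 1)) *
          ((Nat.sqrt (a * c) + 1) * (Nat.sqrt (a * c) + 1)) *
          ((Nat.sqrt (a * b) + 1) * (Nat.sqrt (a * b) + 1)) := by ring
      rw [e1, e2]
      have hbcpos : 0 < b * c := Nat.mul_pos hb hc
      have hacpos : 0 < a * c := Nat.mul_pos ha hc
      have habpos : 0 < a * b := Nat.mul_pos ha hb
      exact Nat.mul_lt_mul'' (Nat.mul_lt_mul'' hP hQ) hR
    exact absurd (lt_of_lt_of_le h5 h4) (lt_irrefl _)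
  obtain ⟨x, y, z, hne, hx, hy, hz, hdvd⟩ := pigeon769 (Nat.sqrt (b * c)) (Nat.sqrt (a * c))
    (Nat.sqrt (a * b)) (a * b * c) (Nat.mul_pos (Nat.mul_pos ha hb) hc) hbox α β γ
  have hdvd' : (a : ℤ) * b * c ∣ α * x + β * y + γ * z := by
    have : ((a * b * c : ℕ) : ℤ) = (a : ℤ) * b * c := by push_cast; ring
    rw [← this]
    exact hdvd
  have hQ := hlin x y z hdvd'
  -- the bounds
  have hx2 : x ^ 2 ≤ (b : ℤ) * c := by
    have h4 : x ^ 2 ≤ ((Nat.sqrt (b * c) : ℕ) : ℤ) ^ 2 := by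
      rw [← sq_abs x]
      exact pow_le_pow_left₀ (abs_nonneg x) hx 2
    have h5 : ((Nat.sqrt (b * c) : ℕ) : ℤ) ^ 2 ≤ (b : ℤ) * c := by
      exact_mod_cast Nat.sqrt_le' (b * c)
    exact h4.trans h5
  have hy2 : y ^ 2 ≤ (a : ℤ) * c := by
    have h4 : y ^ 2 ≤ ((Nat.sqrt (a * c) : ℕ) : ℤ) ^ 2 := by
      rw [← sq_abs y]
      exact pow_le_pow_left₀ (abs_nonneg y) hy 2
    have h5 : ((Nat.sqrt (a * c) : ℕ) : ℤ) ^ 2 ≤ (a : ℤ) * c := by
      exact_mod_cast Nat.sqrt_le' (a * c)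
    exact h4.trans h5
  have hz2 : z ^ 2 ≤ (a : ℤ) * b := by
    have h4 : z ^ 2 ≤ ((Nat.sqrt (a * b) : ℕ) : ℤ) ^ 2 := by
      rw [← sq_abs z]
      exact pow_le_pow_left₀ (abs_nonneg z) hz 2
    have h5 : ((Nat.sqrt (a * b) : ℕ) : ℤ) ^ 2 ≤ (a : ℤ) * b := by
      exact_mod_cast Nat.sqrt_le' (a * b)
    exact h4.trans h5
  obtain ⟨k, hk⟩ := hQ
  have hx0 : 0 ≤ x ^ 2 := sq_nonneg x
  have hy0 : 0 ≤ y ^ 2 := sq_nonneg y
  have hz0 : 0 ≤ z ^ 2 := sq_nonneg z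
  have habc : (0 : ℤ) < a * b * c := mul_pos (mul_pos haZ hbZ) hcZ
  have hupper : (a : ℤ) * x ^ 2 - b * y ^ 2 - c * z ^ 2 ≤ a * b * c := by
    nlinarith [mul_nonneg hbZ.le hy0, mul_nonneg hcZ.le hz0, mul_le_mul_of_nonneg_left hx2 haZ.le]
  have hlower : -(2 * ((a : ℤ) * b * c)) ≤ (a : ℤ) * x ^ 2 - b * y ^ 2 - c * z ^ 2 := by
    nlinarith [mul_nonneg haZ.le hx0, mul_le_mul_of_nonneg_left hy2 hbZ.le,
      mul_le_mul_of_nonneg_left hz2 hcZ.le]
  -- `k ∈ {-2, -1, 0, 1}`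
  have hk1 : k ≤ 1 := by
    by_contra hcon
    rw [not_le] at hcon
    have : (a : ℤ) * b * c * 2 ≤ (a : ℤ) * b * c * k :=
      mul_le_mul_of_nonneg_left (by omega) habc.le
    rw [hk] at hupper
    linarith
  have hk2 : -2 ≤ k := by
    by_contra hcon
    rw [not_le] at hcon
    have : (a : ℤ) * b * c * k ≤ (a : ℤ) * b * c * (-3) :=
      mul_le_mul_of_nonneg_left (by omega) habc.le
    rw [hk] at hlower
    linarith
  -- exclude `k = 1`
  have hkne1 : k ≠ 1 := by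
    intro hk1'
    rw [hk1', mul_one] at hk
    have hyz : (b : ℤ) * y ^ 2 + c * z ^ 2 ≤ 0 := by
      nlinarith [mul_le_mul_of_nonneg_left hx2 haZ.le]
    have hby : (b : ℤ) * y ^ 2 = 0 := by
      nlinarith [mul_nonneg hbZ.le hy0, mul_nonneg hcZ.le hz0]
    have hcz : (c : ℤ) * z ^ 2 = 0 := by
      nlinarith [mul_nonneg hbZ.le hy0, mul_nonneg hcZ.le hz0]
    have hxx : (a : ℤ) * x ^ 2 = a * (b * c) := by
      rw [hby, hcz] at hk
      linarith
    have hxx' : ((b * c : ℕ) : ℤ) = x ^ 2 := by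
      push_cast
      exact (mul_left_cancel₀ haZ.ne' hxx).symm
    have hbc' := eq_one_of_squarefree_sq769 hsqbc hxx'
    exact hbc1 ⟨Nat.eq_one_of_mul_eq_one_right hbc', Nat.eq_one_of_mul_eq_one_left hbc'⟩
  -- exclude `k = -2`
  have hkne2 : k ≠ -2 := by
    intro hk2'
    rw [hk2'] at hk
    have e1 : (b : ℤ) * y ^ 2 ≤ a * b * c := by
      nlinarith [mul_le_mul_of_nonneg_left hy2 hbZ.le]
    have e2 : (c : ℤ) * z ^ 2 ≤ a * b * c := by
      nlinarith [mul_le_mul_of_nonneg_left hz2 hcZ.le]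
    have e3 : (0 : ℤ) ≤ a * x ^ 2 := mul_nonneg haZ.le hx0
    have hby : (b : ℤ) * y ^ 2 = b * (a * c) := by nlinarith
    have hcz : (c : ℤ) * z ^ 2 = c * (a * b) := by nlinarith
    have hyy : ((a * c : ℕ) : ℤ) = y ^ 2 := by
      push_cast
      exact (mul_left_cancel₀ hbZ.ne' hby).symm
    have hzz : ((a * b : ℕ) : ℤ) = z ^ 2 := by
      push_cast
      exact (mul_left_cancel₀ hcZ.ne' hcz).symm
    have hac' := eq_one_of_squarefree_sq769 hsqac hyy
    have hab' := eq_one_of_squarefree_sq769 hsqab hzz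
    exact hbc1 ⟨Nat.eq_one_of_mul_eq_one_left hab', Nat.eq_one_of_mul_eq_one_left hac'⟩
  have hk01 : k = 0 ∨ k = -1 := by omega
  rcases hk01 with hk0 | hkm1
  · -- `Q = 0`
    rw [hk0, mul_zero] at hk
    exact ⟨x, y, z, hne, by linarith⟩
  · -- `Q = -abc`
    rw [hkm1] at hk
    by_cases hzab : z ^ 2 = (a : ℤ) * b
    · -- `ab = 1`
      have hzz : ((a * b : ℕ) : ℤ) = z ^ 2 := by
        push_cast
        exact hzab.symm
      have hab' := eq_one_of_squarefree_sq769 hsqab hzz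
      have ha1 : a = 1 := Nat.eq_one_of_mul_eq_one_right hab'
      have hb1 : b = 1 := Nat.eq_one_of_mul_eq_one_left hab'
      refine ⟨1, 1, 0, Or.inl one_ne_zero, ?_⟩
      rw [ha1, hb1]
      norm_num
    · refine ⟨b * y + x * z, a * x + y * z, z ^ 2 - a * b, Or.inr (Or.inr (sub_ne_zero.mpr hzab)),
        ?_⟩
      linear_combination (z ^ 2 - (a : ℤ) * b) * hk

end Fermat.Agent.LT.HM.H769
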